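import Fermat.Prelude.Def_FLTPrelim_Modularity
import Fermat.Agent.ThreeFive.SwitchTwo

/-!
# Invariants at two

The invariants of a curve with good reduction at two and `a₂ = ± 2`, and a model with given
invariants which is multiplicative at two.
-/

set_option autoImplicit false

namespace Fermat.Agent.Row42.SwitchFive

open WeierstrassCurve

/-- Weierstrass equations over `𝔽₂` with one or five points. -/
theorem two_count : ∀ a1 a2 a3 a4 a6 : ZMod 2,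
    ((⟨a1, a2, a3, a4, a6⟩ : WeierstrassCurve (ZMod 2)).Δ ≠ 0) →
    (((Finset.univ.filter fun v : ZMod 2 × ZMod 2 => v.2 ^ 2 + a1 * v.1 * v.2 + a3 * v.2 =
        v.1 ^ 3 + a2 * v.1 ^ 2 + a4 * v.1 + a6).card = 0) ∨
      ((Finset.univ.filter fun v : ZMod 2 × ZMod 2 => v.2 ^ 2 + a1 * v.1 * v.2 + a3 * v.2 =
        v.1 ^ 3 + a2 * v.1 ^ 2 + a4 * v.1 + a6).card = 4)) →
    a1 = 0 ∧ a3 = 1 ∧ a2 + a4 = 1 := by
  simp only [WeierstrassCurve.Δ, WeierstrassCurve.b₂, WeierstrassCurve.b₄, WeierstrassCurve.b₆,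
    WeierstrassCurve.b₈]
  decide +kernel

/-- The coefficients modulo two of a curve with `a₂ = ± 2`. -/
theorem parity_of_ap_two (W : WeierstrassCurve ℤ) (h2 : W.IsGoodPrimeFor 2)
    (ha : W.apOfModel 2 = 2 ∨ W.apOfModel 2 = -2) :
    W.a₁ % 2 = 0 ∧ W.a₃ % 2 = 1 ∧ (W.a₂ + W.a₄) % 2 = 1 := by
  classical
  set E := W.reductionMod 2 with hE
  have hΔ : E.Δ ≠ 0 := by
    rw [hE, WeierstrassCurve.reductionMod, WeierstrassCurve.map_Δ, eq_intCast]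
    exact fun h => h2 ((ZMod.intCast_zmod_eq_zero_iff_dvd _ 2).1 h)
  have : E.IsElliptic := ⟨IsUnit.mk0 _ hΔ⟩
  have hEq : ∀ x y : ZMod 2, E.toAffine.Equation x y ↔ y ^ 2 + E.a₁ * x * y + E.a₃ * y =
      x ^ 3 + E.a₂ * x ^ 2 + E.a₄ * x + E.a₆ := fun x y => by rw [Affine.equation_iff]
  have hcard : W.apOfModel 2 = 2 - ((Finset.univ.filter fun v : ZMod 2 × ZMod 2 =>
      v.2 ^ 2 + E.a₁ * v.1 * v.2 + E.a₃ * v.2 =
        v.1 ^ 3 + E.a₂ * v.1 ^ 2 + E.a₄ * v.1 + E.a₆).card : ℕ) := by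
    rw [WeierstrassCurve.apOfModel, ← hE, WeierstrassCurve.traceOfFrobenius,
      WeierstrassCurve.card, Nat.card_congr E.toAffine.pointEquiv,
      show Nat.card (WithZero {xy : ZMod 2 × ZMod 2 // E.toAffine.Equation xy.1 xy.2}) =
        Nat.card {xy : ZMod 2 × ZMod 2 // E.toAffine.Equation xy.1 xy.2} + 1 from
          Finite.card_option, Nat.card_zmod,
      Nat.card_congr (Equiv.subtypeEquivRight
        (p := fun v : ZMod 2 × ZMod 2 => E.toAffine.Equation v.1 v.2) fun v => hEq v.1 v.2),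
      Nat.card_eq_fintype_card, Fintype.card_subtype]
    push_cast
    ring
  obtain ⟨h1, h3, h4⟩ := two_count E.a₁ E.a₂ E.a₃ E.a₄ E.a₆ hΔ (by omega)
  simp only [hE, WeierstrassCurve.reductionMod, WeierstrassCurve.map_a₁, WeierstrassCurve.map_a₂,
    WeierstrassCurve.map_a₃, WeierstrassCurve.map_a₄, eq_intCast] at h1 h3 h4
  rw [← Int.cast_add] at h4
  refine ⟨?_, ?_, ?_⟩
  · exact Int.emod_eq_zero_of_dvd ((ZMod.intCast_zmod_eq_zero_iff_dvd _ 2).1 h1)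
  · have := (ZMod.intCast_eq_intCast_iff' W.a₃ 1 2).1 (by rw [h3, Int.cast_one]); simpa using this
  · have := (ZMod.intCast_eq_intCast_iff' (W.a₂ + W.a₄) 1 2).1 (by rw [h4, Int.cast_one])
    simpa using this

/-- `c₄ = 16 h`, `c₆ = 8 t` with `h` odd, `t ≡ Δ ≡ 1 (mod 4)`. -/
theorem invariants_of_ap_two (W : WeierstrassCurve ℤ) (h2 : W.IsGoodPrimeFor 2)
    (ha : W.apOfModel 2 = 2 ∨ W.apOfModel 2 = -2) :
    ∃ h t : ℤ, W.c₄ = 16 * h ∧ W.c₆ = 8 * t ∧ h % 2 = 1 ∧ t % 4 = 1 ∧ W.Δ % 4 = 1 := by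
  obtain ⟨h1, h3, h24⟩ := parity_of_ap_two W h2 ha
  obtain ⟨s, hs⟩ : (2 : ℤ) ∣ W.a₁ := Int.dvd_of_emod_eq_zero h1
  obtain ⟨r, hr⟩ : ∃ r, W.a₃ = 2 * r + 1 := ⟨W.a₃ / 2, by omega⟩
  obtain ⟨d, hd⟩ : ∃ d, W.a₄ = 2 * d + 1 - W.a₂ := ⟨(W.a₂ + W.a₄) / 2, by omega⟩
  set m : ℤ := s ^ 2 + W.a₂ with hm
  set b : ℤ := W.a₄ + s * W.a₃ with hb
  set h : ℤ := m ^ 2 - 3 * b with hh
  set t : ℤ := -8 * m ^ 3 + 36 * m * b - 27 * (W.a₃ ^ 2 + 4 * W.a₆) with ht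
  have e4 : W.c₄ = 16 * h := by
    simp only [WeierstrassCurve.c₄, WeierstrassCurve.b₂, WeierstrassCurve.b₄, hs, hh, hm, hb]; ring
  have e6 : W.c₆ = 8 * t := by
    simp only [WeierstrassCurve.c₆, WeierstrassCurve.b₂, WeierstrassCurve.b₄, WeierstrassCurve.b₆,
      hs, ht, hm, hb]; ring
  have ht4 : t % 4 = 1 := by
    rw [ht, hr]
    have : -8 * m ^ 3 + 36 * m * b - 27 * ((2 * r + 1) ^ 2 + 4 * W.a₆) =
        4 * (-2 * m ^ 3 + 9 * m * b - 27 * (r ^ 2 + r + W.a₆) - 7) + 1 := by ring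
    rw [this]; omega
  refine ⟨h, t, e4, e6, ?_, ht4, ?_⟩
  · rw [hh, hm, hb, hr, hd]
    have h4 : (s * (s + 1)) % 2 = 0 :=
      Int.emod_eq_zero_of_dvd (Int.even_mul_succ_self s).two_dvd
    have h5 : (W.a₂ * (W.a₂ + 1)) % 2 = 0 :=
      Int.emod_eq_zero_of_dvd (Int.even_mul_succ_self W.a₂).two_dvd
    have : (s ^ 2 + W.a₂) ^ 2 - 3 * (2 * d + 1 - W.a₂ + s * (2 * r + 1)) =
        2 * (s ^ 2 * W.a₂ - 3 * d - 3 * s * r - 2 + W.a₂ - 2 * s) + W.a₂ * (W.a₂ + 1) +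
          (s * (s + 1)) * (s * (s + 1)) - 2 * (s * (s * (s + 1))) + s * (s + 1) + 1 := by ring
    rw [this]
    generalize hA : s * (s + 1) = A at h4 ⊢
    obtain ⟨A', rfl⟩ : (2 : ℤ) ∣ A := Int.dvd_of_emod_eq_zero h4
    rw [show (2 * A') * (2 * A') = 2 * (2 * A' * A') by ring,
      show s * (2 * A') = 2 * (s * A') by ring]
    omega
  · have h27 : 64 * h ^ 3 - t ^ 2 = 27 * W.Δ := by
      have := W.c_relation
      rw [e4, e6] at this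
      linarith
    obtain ⟨c, hc⟩ : ∃ c, t = 4 * c + 1 := ⟨t / 4, by omega⟩
    rw [hc, show (4 * c + 1) ^ 2 = 4 * (4 * c ^ 2 + 2 * c) + 1 by ring] at h27
    omega

/-- A model, multiplicative at two, with invariants congruent modulo `81` to those of a twist of
`W` by scaling. -/
theorem exists_model_of_invariants (W : WeierstrassCurve ℤ) (l : ℤ) {c4 c6 : ℤ}
    (h4 : ¬(2 : ℤ) ∣ c4) (h6 : c6 % 4 = 3) (h64 : (64 : ℤ) ∣ c4 ^ 3 - c6 ^ 2)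
    (k4 : (81 : ℤ) ∣ c4 - l ^ 2 * W.c₄) (k6 : (81 : ℤ) ∣ c6 - l ^ 3 * W.c₆) :
    ∃ W' : WeierstrassCurve ℤ, W'.c₄ = c4 ∧ W'.c₆ = c6 := by
  set s : ℤ := -c6 * c4 ^ 31 with hs
  set b : ℤ := 3969 * s + 1216 * (l * W.b₂) with hb
  have h32 := ThreeFive.pow_32_of_odd h4
  have hc : (c4 : ZMod 64) ^ 3 = (c6 : ZMod 64) ^ 2 := by
    rw [← sub_eq_zero]
    exact_mod_cast (ZMod.intCast_zmod_eq_zero_iff_dvd _ 64).2 h64
  have hb64 : (b : ZMod 64) = (s : ZMod 64) := by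
    rw [hb]; push_cast
    rw [show (3969 : ZMod 64) = 1 from rfl, show (1216 : ZMod 64) = 0 from rfl]; ring
  have hH : (c4 : ZMod 64) = (s : ZMod 64) ^ 2 := by
    rw [hs]; push_cast
    linear_combination -((c4 : ZMod 64) * ((c4 : ZMod 64) ^ 32 + 1)) * h32
      + (c4 : ZMod 64) ^ 62 * hc
  have hT : (c6 : ZMod 64) = -(s : ZMod 64) ^ 3 := by
    rw [hs]; push_cast
    linear_combination -((c6 : ZMod 64) * ((c4 : ZMod 64) ^ 64 + (c4 : ZMod 64) ^ 32 + 1)) * h32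
      + ((c6 : ZMod 64) * (c4 : ZMod 64) ^ 93) * hc
  have hb81 : (81 : ℤ) ∣ b - l * W.b₂ := ⟨49 * s + 15 * (l * W.b₂), by rw [hb]; ring⟩
  obtain ⟨e, he⟩ := hb81
  have hbe : b = l * W.b₂ + 81 * e := by linarith
  -- divisibilities
  have d48 : (48 : ℤ) ∣ b ^ 2 - c4 := by
    have d16 : (16 : ℤ) ∣ b ^ 2 - c4 := by
      refine (show (16 : ℤ) ∣ 64 by norm_num).trans ?_
      rw [show (64 : ℤ) = ((64 : ℕ) : ℤ) from rfl, ← ZMod.intCast_zmod_eq_zero_iff_dvd]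
      push_cast
      rw [hb64, hH, sub_self]
    have d3 : (3 : ℤ) ∣ b ^ 2 - c4 := by
      obtain ⟨x, hx⟩ := k4
      refine ⟨54 * e * (l * W.b₂) + 2187 * e ^ 2 + 8 * (l ^ 2 * W.b₄) - 27 * x, ?_⟩
      rw [show c4 = l ^ 2 * W.c₄ + 81 * x by linarith, hbe, WeierstrassCurve.c₄]; ring
    exact (show IsCoprime (16 : ℤ) 3 from ⟨1, -5, by norm_num⟩).mul_dvd d16 d3
  have d1728 : (1728 : ℤ) ∣ b ^ 3 - 3 * b * c4 - 2 * c6 := by
    have d64 : (64 : ℤ) ∣ b ^ 3 - 3 * b * c4 - 2 * c6 := by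
      rw [show (64 : ℤ) = ((64 : ℕ) : ℤ) from rfl, ← ZMod.intCast_zmod_eq_zero_iff_dvd]
      push_cast
      rw [hb64, hH, hT]; ring
    have d27 : (27 : ℤ) ∣ b ^ 3 - 3 * b * c4 - 2 * c6 := by
      obtain ⟨x, hx⟩ := k4
      obtain ⟨y, hy⟩ := k6
      refine ⟨16 * l ^ 3 * W.b₆ + 9 * e * (l * W.b₂) ^ 2 + 729 * e ^ 2 * (l * W.b₂) + 19683 * e ^ 3
        - 9 * e * (l ^ 2 * W.c₄) - 9 * b * x - 6 * y, ?_⟩
      rw [show c4 = l ^ 2 * W.c₄ + 81 * x by linarith,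
        show c6 = l ^ 3 * W.c₆ + 81 * y by linarith, hbe,
        WeierstrassCurve.c₄, WeierstrassCurve.c₆]
      ring
    exact (show IsCoprime (64 : ℤ) 27 from ⟨-8, 19, by norm_num⟩).mul_dvd d64 d27
  obtain ⟨a4, ha4⟩ := d48
  obtain ⟨a6, ha6⟩ := d1728
  obtain ⟨a2, ha2⟩ : ∃ a2, b = 1 + 4 * a2 := by
    have hc4 : c4 % 4 = 1 := by
      have h16 := dvd_trans (show (4 : ℤ) ∣ 64 by norm_num) h64
      obtain ⟨u, hu⟩ : ∃ u, c6 = 4 * u + 3 := ⟨c6 / 4, by omega⟩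
      obtain ⟨w, hw⟩ : ∃ w, c4 = 2 * w + 1 := ⟨c4 / 2, by omega⟩
      rw [hu, hw, show (2 * w + 1) ^ 3 - (4 * u + 3) ^ 2 =
        4 * (2 * w ^ 3 + 3 * w ^ 2 + w - 4 * u ^ 2 - 6 * u - 2) + 2 * w by ring] at h16
      omega
    have hs4 : ((s : ℤ) : ZMod 4) = 1 := by
      rw [hs]; push_cast
      rw [show (c6 : ZMod 4) = ((3 : ℤ) : ZMod 4) from
          (ZMod.intCast_eq_intCast_iff' _ _ 4).2 (by simpa using h6),
        show (c4 : ZMod 4) = ((1 : ℤ) : ZMod 4) from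
          (ZMod.intCast_eq_intCast_iff' _ _ 4).2 (by simpa using hc4)]
      decide
    have : ((b - 1 : ℤ) : ZMod 4) = 0 := by
      rw [hb]; push_cast
      rw [hs4, show (3969 : ZMod 4) = 1 from rfl, show (1216 : ZMod 4) = 0 from rfl]; ring
    obtain ⟨a, ha⟩ := (ZMod.intCast_zmod_eq_zero_iff_dvd _ 4).1 this
    exact ⟨a, by push_cast at ha; linarith⟩
  refine ⟨⟨1, a2, 0, a4, a6⟩, ?_, ?_⟩
  · simp only [WeierstrassCurve.c₄, WeierstrassCurve.b₂, WeierstrassCurve.b₄]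
    linear_combination (-(b + 1 + 4 * a2)) * ha2 + ha4
  · simp only [WeierstrassCurve.c₆, WeierstrassCurve.b₂, WeierstrassCurve.b₄, WeierstrassCurve.b₆]
    have key : 2 * (-b ^ 3 + 72 * b * a4 - 864 * a6) = 2 * c6 := by
      linear_combination (-3 * b) * ha4 + ha6
    rw [ha2] at key
    linarith

end Fermat.Agent.Row42.SwitchFive
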