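import Fermat.Agent.ThreeFive.Negative
import Fermat.Agent.ThreeFive.SwitchTwo

/-!
# The sign of the cuspidal polynomial
-/

set_option autoImplicit false

namespace Fermat.Agent.Row42.SwitchFive

open Fermat.Agent.ThreeFive Polynomial

/-- The cuspidal polynomial takes at infinitely many rational points values of sign opposite to
that of the discriminant. -/
theorem infinite_mul_FD_neg {c4 c6 E : ℚ} (hE : c4 ^ 3 - c6 ^ 2 = 1728 * E) (h0 : E ≠ 0) :
    {τ : ℚ | E * (FD c4 c6).eval τ < 0}.Infinite := by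
  rcases lt_or_gt_of_ne h0 with hneg | hpos
  swap
  · exact (infinite_FD_neg hE hpos).mono fun τ hτ => mul_neg_of_pos_of_neg hpos hτ
  have hne : c4 ^ 3 ≠ c6 ^ 2 := by
    rw [← sub_ne_zero, hE]; exact mul_ne_zero (by norm_num) h0
  set F : ℝ[X] := (FD c4 c6).map (algebraMap ℚ ℝ) with hF
  have hF0 : F.eval 0 = 1 := by
    rw [hF, show (0 : ℝ) = algebraMap ℚ ℝ 0 by simp, Polynomial.eval_map, Polynomial.eval₂_at_apply,
      FD_eval_zero hne, map_one]
  have h1 : (0 : ℝ) < F.eval 0 := by rw [hF0]; exact one_pos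
  have hev := ((F.continuous.tendsto _).comp
    (tendsto_one_div_add_atTop_nhds_zero_nat (𝕜 := ℝ))).eventually_const_lt h1
  obtain ⟨K, hK⟩ := Filter.eventually_atTop.1 hev
  refine Set.infinite_of_injective_forall_mem (f := fun n : ℕ => (1 : ℚ) / (((n + K : ℕ) : ℚ) + 1))
    ?_ fun n => ?_
  · intro a b hab
    simp only [one_div, inv_inj] at hab
    have : ((a + K : ℕ) : ℚ) = ((b + K : ℕ) : ℚ) := add_right_cancel hab
    have := Nat.cast_injective (R := ℚ) this
    omega
  · have h2 := hK (n + K) (Nat.le_add_left _ _)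
    simp only [Function.comp] at h2
    rw [show (1 : ℝ) / (((n + K : ℕ) : ℝ) + 1) =
        algebraMap ℚ ℝ ((1 : ℚ) / (((n + K : ℕ) : ℚ) + 1)) by simp, hF, Polynomial.eval_map,
      Polynomial.eval₂_at_apply, eq_ratCast] at h2
    exact mul_neg_of_neg_of_pos hneg (by exact_mod_cast h2)

end Fermat.Agent.Row42.SwitchFive
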