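import Fermat.Agent.Row42.SwitchFive.Residue
import Fermat.Agent.Row42.SwitchFive.Invariants
import Fermat.Agent.Row42.SwitchFive.Sign
import Fermat.Agent.ThreeFive.SwitchFrey

/-!
# The 3–5 switch from good supersingular reduction at two

For a semistable curve with good reduction at two and `a₂ = ± 2` we find a curve with the same
five-torsion which is multiplicative at two, with discriminant `4ᵏ r < 0`, `r ≡ 5 (mod 8)`, and
without rational two-torsion.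
-/

set_option autoImplicit false

namespace Fermat.Agent.Row42.SwitchFive

open WeierstrassCurve Polynomial Fermat.Agent.ThreeFive
open scoped WeierstrassCurve.Affine

local notation "Qb" => AlgebraicClosure ℚ

/-- **The switch at five for `a₂ = ± 2`.** -/
theorem exists_switch_five (W : WeierstrassCurve ℤ) (hΔ : W.Δ ≠ 0) (hW : W.IsSemistableModel)
    (h2 : W.IsGoodPrimeFor 2) (ha : W.apOfModel 2 = 2 ∨ W.apOfModel 2 = -2) :
    ∃ W' : WeierstrassCurve ℤ, W'.IsSemistableModel ∧ W'.Δ < 0 ∧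
      (∃ (k : ℕ) (r : ℤ), 0 < k ∧ W'.Δ = 4 ^ k * r ∧ r % 8 = 5) ∧
      (∀ x : ℚ, x ^ 3 + (-27 * (W'.c₄ : ℚ)) * x + (-54 * (W'.c₆ : ℚ)) ≠ 0) ∧
      ∀ ℓ : ℕ, ℓ.Prime → ℓ ≠ 5 → W.IsGoodPrimeFor ℓ → W'.IsGoodPrimeFor ℓ →
        (5 : ℤ) ∣ W'.apOfModel ℓ - W.apOfModel ℓ := by
  obtain ⟨h, t, e4W, e6W, hh, ht, hE⟩ := invariants_of_ap_two W h2 ha
  set c4 := W.c₄ with hc4def
  set c6 := W.c₆ with hc6def
  set Δ := W.Δ with hΔdef
  have hrelZ : c4 ^ 3 - c6 ^ 2 = 1728 * Δ := W.c_relation.symm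
  have hrel : (c4 : ℚ) ^ 3 - (c6 : ℚ) ^ 2 = 1728 * (Δ : ℚ) := by exact_mod_cast hrelZ
  have hne : (c4 : ℚ) ^ 3 ≠ (c6 : ℚ) ^ 2 := by
    rw [← sub_ne_zero, hrel]; exact mul_ne_zero (by norm_num) (by exact_mod_cast hΔ)
  obtain ⟨hP4, hP6, hPD⟩ := map_Z (c4 := c4) (c6 := c6) (Δ := Δ) hne hrel
  -- Bezout and leading coefficients
  obtain ⟨ra, rb, hbez⟩ := F4_FD_coprime hne
  obtain ⟨da, Pa, hda, hPa⟩ := exists_int_poly ra
  obtain ⟨db, Pb, hdb, hPb⟩ := exists_int_poly rb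
  set Nb : ℤ := da * db with hNb
  have hNb0 : Nb ≠ 0 := by positivity
  have hbezZ : C db * Pa * Z4 c4 c6 Δ + C da * Pb * ZD c4 c6 Δ = C Nb := by
    apply Polynomial.map_injective (Int.castRingHom ℚ) Int.cast_injective
    simp only [Polynomial.map_add, Polynomial.map_mul, Polynomial.map_C, hPa, hPb, hP4, hPD, hNb]
    simp only [eq_intCast (Int.castRingHom ℚ), Int.cast_mul, map_mul, Int.cast_one, map_one,
      one_mul]
    linear_combination (C (db : ℚ) * C (da : ℚ)) * hbez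
  obtain ⟨L, hL0, hL⟩ : ∃ L : ℤ, L ≠ 0 ∧
      ∀ q : ℤ, q ∣ (Z4 c4 c6 Δ).coeff 20 → q ∣ (ZD c4 c6 Δ).coeff 12 → q ∣ L := by
    rcases leading_not_both_zero hne with h' | h'
    · refine ⟨(Z4 c4 c6 Δ).coeff 20, ?_, fun q h _ => h⟩
      intro e
      have := congrArg (fun q => Polynomial.coeff q 20) hP4
      simp [coeff_map, e] at this
      exact h' this.symm
    · refine ⟨(ZD c4 c6 Δ).coeff 12, ?_, fun q _ h => h⟩
      intro e
      have := congrArg (fun q => Polynomial.coeff q 12) hPD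
      simp [coeff_map, e] at this
      exact h' this.symm
  -- the odd modulus `R = 81 R₀`
  obtain ⟨R₀, hR₀, hR₀d⟩ := exists_odd_part (Δ * Nb * L).natAbs
    (Int.natAbs_ne_zero.2 (mul_ne_zero (mul_ne_zero hΔ hNb0) hL0))
  set R : ℤ := 81 * (R₀ : ℤ) with hR
  have hRodd : ¬(2 : ℤ) ∣ R := by
    intro h'
    rcases Int.prime_two.dvd_or_dvd h' with h'' | h''
    · omega
    · exact hR₀ (Int.natCast_dvd_natCast.1 h'')
  have hR0 : R ≠ 0 := fun h => hRodd (h ▸ dvd_zero 2)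
  -- base point
  obtain ⟨x₀, hx₀⟩ := exists_sD_value (h := h) (t := t) (E := Δ) hh ht hE
  obtain ⟨a, b, hab⟩ : IsCoprime (128 : ℤ) R := by
    have : IsCoprime (2 : ℤ) R := (Int.prime_two.coprime_iff_not_dvd).2 hRodd
    rw [show (128 : ℤ) = 2 ^ 7 by norm_num]
    exact this.pow_left
  set w1 : ℤ := 2 * x₀ * (b * R) + 32 * a with hw1
  set u1 : ℤ := 4 * w1 with hu1
  set v1 : ℤ := R ^ 32 with hv1
  have hu1R : R ∣ u1 - 1 :=
    ⟨8 * x₀ * b - b, by rw [hu1, hw1]; linear_combination hab⟩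
  have hw1x : (32 : ℤ) ∣ w1 - 2 * x₀ :=
    ⟨a - 8 * x₀ * a, by rw [hw1]; linear_combination (2 * x₀) * hab⟩
  have hΔQ : (Δ : ℚ) ≠ 0 := by exact_mod_cast hΔ
  obtain ⟨τ, hτ, hτne⟩ := ((infinite_mul_FD_neg hrel hΔQ).sdiff
    (Set.finite_singleton ((v1 : ℚ) / u1))).nonempty
  simp only [Set.mem_ofPred_eq] at hτ
  have hδ' : (τ.den : ℤ) * v1 - τ.num * u1 ≠ 0 := by
    intro h0
    by_cases hu : u1 = 0
    · rw [hu, mul_zero, sub_zero] at h0
      exact mul_ne_zero (by exact_mod_cast τ.den_nz) (pow_ne_zero 32 hR0) h0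
    · apply hτne
      show τ = (v1 : ℚ) / u1
      have h1 : ((τ.den : ℤ) : ℚ) * v1 = τ.num * u1 := by exact_mod_cast sub_eq_zero.1 h0
      have h3 : τ * τ.den = τ.num := Rat.mul_den_eq_num τ
      rw [eq_div_iff (by exact_mod_cast hu)]
      refine mul_left_cancel₀ (show (τ.den : ℚ) ≠ 0 by exact_mod_cast τ.den_nz) ?_
      push_cast at h1
      linear_combination (u1 : ℚ) * h3 - h1
  set δ' : ℤ := (τ.den : ℤ) * v1 - τ.num * u1 with hδdef
  set Λ : ℤ := 128 * |R| * |δ'| with hΛ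
  have hΛ0 : 0 < Λ := by
    have := abs_pos.2 hR0
    have := abs_pos.2 hδ'
    positivity
  set P : ℤ := Λ * τ.den with hP
  set Q : ℤ := Λ * τ.num with hQ
  have hP0 : 0 < P := mul_pos hΛ0 (by exact_mod_cast τ.den_pos)
  have hQP : (Q : ℚ) / P = τ := by
    rw [hP, hQ]; push_cast
    rw [mul_div_mul_left _ _ (by exact_mod_cast hΛ0.ne')]
    exact Rat.num_div_den τ
  have hδ : P * v1 - Q * u1 ≠ 0 := by
    rw [hP, hQ, show Λ * τ.den * v1 - Λ * τ.num * u1 = Λ * δ' by rw [hδdef]; ring]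
    exact mul_ne_zero hΛ0.ne' hδ'
  -- eventual sign
  obtain ⟨K₀, hK₀⟩ : ∃ K₀ : ℕ, ∀ k : ℕ, K₀ ≤ k → 0 < u1 + k * P ∧
      (Δ : ℚ) *
        (FD (c4 : ℚ) c6).eval (((v1 + k * Q : ℤ) : ℚ) / ((u1 + k * P : ℤ) : ℚ)) < 0 := by
    have hPR : (P : ℝ) ≠ 0 := by exact_mod_cast hP0.ne'
    set F : Polynomial ℝ := (C (Δ : ℚ) * FD (c4 : ℚ) c6).map (algebraMap ℚ ℝ) with hF
    have h0 : F.eval ((Q : ℝ) / P) < 0 := by
      rw [hF, show (Q : ℝ) / P = algebraMap ℚ ℝ τ by rw [← hQP]; simp, Polynomial.eval_map,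
        Polynomial.eval₂_at_apply, eq_ratCast, eval_mul, eval_C]
      exact_mod_cast hτ
    have hlim : Filter.Tendsto (fun k : ℕ => ((v1 : ℝ) * (1 / (k : ℝ)) + Q) /
        ((u1 : ℝ) * (1 / (k : ℝ)) + P)) Filter.atTop (nhds ((Q : ℝ) / P)) := by
      have h1 := tendsto_one_div_atTop_nhds_zero_nat (𝕜 := ℝ)
      have := ((h1.const_mul (v1 : ℝ)).add_const (Q : ℝ)).div
        ((h1.const_mul (u1 : ℝ)).add_const (P : ℝ)) (by simpa using hPR)
      simpa [Pi.div_def] using this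
    have hev := ((F.continuous.tendsto _).comp hlim).eventually_lt_const h0
    obtain ⟨K, hK⟩ := Filter.eventually_atTop.1 hev
    refine ⟨max K (u1.natAbs + 1), fun k hk => ?_⟩
    have hk1 : (u1.natAbs + 1 : ℕ) ≤ k := le_trans (le_max_right _ _) hk
    have hu : 0 < u1 + k * P := by
      have h1 : (u1.natAbs : ℤ) + 1 ≤ k := by exact_mod_cast hk1
      have h3 : (k : ℤ) * 1 ≤ k * P := mul_le_mul_of_nonneg_left (by omega) (Int.natCast_nonneg k)
      omega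
    refine ⟨hu, ?_⟩
    have := hK k (le_trans (le_max_left _ _) hk)
    simp only [Function.comp] at this
    have hk0 : (k : ℝ) ≠ 0 := by exact_mod_cast (by omega : k ≠ 0)
    rw [show ((v1 : ℝ) * (1 / (k : ℝ)) + Q) / ((u1 : ℝ) * (1 / (k : ℝ)) + P) =
        algebraMap ℚ ℝ (((v1 + k * Q : ℤ) : ℚ) / ((u1 + k * P : ℤ) : ℚ)) by
      rw [eq_ratCast]; push_cast; field_simp, hF, Polynomial.eval_map,
      Polynomial.eval₂_at_apply, eq_ratCast, eval_mul, eval_C] at this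
    exact_mod_cast this
  -- choice of `k`
  obtain ⟨k, hk, hroot⟩ := exists_cubic_no_int_root hne P Q u1 v1 hP0 hδ
    (by rw [hQP]; intro h0; rw [h0, mul_zero] at hτ; exact lt_irrefl _ hτ) K₀
  obtain ⟨hu0, hDneg⟩ := hK₀ k hk
  set u : ℤ := u1 + k * P with hu
  set v : ℤ := v1 + k * Q with hv
  have hu0' : u ≠ 0 := hu0.ne'
  set G4 : ℤ := hom (Z4 c4 c6 Δ) 20 u v with hG4
  set G6 : ℤ := hom (Z6 c4 c6 Δ) 30 u v with hG6
  set g : ℤ := hom (ZD c4 c6 Δ) 12 u v with hg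
  have eG4 : (G4 : ℚ) = (u : ℚ) ^ 20 * (F4 (c4 : ℚ) c6).eval ((v : ℚ) / u) := by
    rw [hG4, cast_hom hP4 (natDegree_F4_le _ _) hu0']; simp
  have eG6 : (G6 : ℚ) = (u : ℚ) ^ 30 * (F6 (c4 : ℚ) c6).eval ((v : ℚ) / u) := by
    rw [hG6, cast_hom hP6 (natDegree_F6_le _ _) hu0']; simp
  have eg : (g : ℚ) = (u : ℚ) ^ 12 * (FD (c4 : ℚ) c6).eval ((v : ℚ) / u) := by
    rw [hg, cast_hom hPD (natDegree_FD_le _ _) hu0']; simp
  have hΔg : Δ * g < 0 := by
    have : (Δ : ℚ) * g < 0 := by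
      rw [eg, mul_left_comm]
      exact mul_neg_of_pos_of_neg (pow_pos (by exact_mod_cast hu0) 12) hDneg
    exact_mod_cast this
  have hdisc : G4 ^ 3 - G6 ^ 2 = 1728 * Δ * g ^ 5 := by
    have e := congrArg (Polynomial.eval ((v : ℚ) / u)) (F_disc hne)
    simp only [eval_sub, eval_pow, eval_mul, eval_C, hrel] at e
    have : ((G4 ^ 3 - G6 ^ 2 : ℤ) : ℚ) = ((1728 * Δ * g ^ 5 : ℤ) : ℚ) := by
      push_cast
      rw [eG4, eG6, eg]
      linear_combination ((u : ℚ) ^ 60) * e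
    exact_mod_cast this
  -- congruences
  have hdivΛ : ∀ m : ℤ, m ∣ Λ → m ∣ u - u1 ∧ m ∣ v - v1 := fun m hm =>
    ⟨hm.trans (Dvd.intro ((k : ℤ) * τ.den) (by rw [hu, hP]; ring)),
      hm.trans (Dvd.intro ((k : ℤ) * τ.num) (by rw [hv, hQ]; ring))⟩
  obtain ⟨hu128, hv128⟩ := hdivΛ 128 (Dvd.intro (|R| * |δ'|) (by rw [hΛ]; ring))
  obtain ⟨huR, hvR⟩ := hdivΛ R ((dvd_abs R R).2 dvd_rfl |>.trans
    (Dvd.intro (128 * |δ'|) (by rw [hΛ]; ring)))
  have hvR' : R ∣ v := by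
    have := dvd_add hvR (show R ∣ v1 from dvd_pow_self R (by norm_num))
    simpa using this
  have huR' : R ∣ u - 1 := by
    have := dvd_add huR hu1R
    rwa [show u - u1 + (u1 - 1) = u - 1 by ring] at this
  obtain ⟨z, hz⟩ := hu128
  obtain ⟨w, huw, hwx⟩ : ∃ w : ℤ, u = 4 * w ∧ (32 : ℤ) ∣ w - 2 * x₀ := by
    refine ⟨w1 + 32 * z, by rw [hu1] at hz; linarith, ?_⟩
    have := dvd_add hw1x (Dvd.intro z (rfl : (32 : ℤ) * z = 32 * z))
    rwa [show w1 - 2 * x₀ + 32 * z = w1 + 32 * z - 2 * x₀ by ring] at this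
  have hv32 : (32 : ℤ) ∣ v - 1 := by
    have h1 : (32 : ℤ) ∣ v1 - 1 := by
      refine (show (32 : ℤ) ∣ 64 by norm_num).trans ?_
      rw [show (64 : ℤ) = ((64 : ℕ) : ℤ) from rfl, ← ZMod.intCast_zmod_eq_zero_iff_dvd, hv1]
      push_cast
      rw [pow_32_of_odd hRodd, sub_self]
    have := dvd_add ((show (32 : ℤ) ∣ 128 by norm_num).trans hv128) h1
    rwa [show v - v1 + (v1 - 1) = v - 1 by ring] at this
  have hw2 : (2 : ℤ) ∣ w := by
    obtain ⟨c, hc⟩ := hwx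
    exact ⟨x₀ + 16 * c, by linarith⟩
  set S4 : ℤ := scaled (s4 h t Δ) 20 w v with hS4
  set S6 : ℤ := scaled (s6 h t Δ) 30 w v with hS6
  set SD : ℤ := scaled (sD h t Δ) 12 w v with hSD
  have g4 : G4 = 4 ^ 20 * S4 := by
    rw [hG4, huw, hS4]
    exact hom_eq_scaled (fun i hi => by rw [e4W, e6W]; exact k4_scaled h t Δ hi) w v
  have g6 : G6 = 4 ^ 30 * S6 := by
    rw [hG6, huw, hS6]
    exact hom_eq_scaled (fun i hi => by rw [e4W, e6W]; exact k6_scaled h t Δ hi) w v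
  have gD : g = 4 ^ 12 * SD := by
    rw [hg, huw, hSD]
    exact hom_eq_scaled (fun i hi => by rw [e4W, e6W]; exact kD_scaled h t Δ hi) w v
  have hdisc' : S4 ^ 3 - S6 ^ 2 = 1728 * Δ * SD ^ 5 := by
    rw [g4, g6, gD] at hdisc
    refine mul_left_cancel₀ (show ((4 : ℤ) ^ 60) ≠ 0 by norm_num) ?_
    linear_combination hdisc
  have hS4o : ¬(2 : ℤ) ∣ S4 := s4_mod_two hh hE hw2 hv32
  have hS6m : S6 % 4 = 3 := s6_mod_four hh ht hE hw2 hv32
  have hR4 : R ∣ G4 - c4 := hom_sub_zero_dvd 20 (k4 c4 c6 Δ) huR' hvR'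
  have hR6 : R ∣ G6 - c6 := hom_sub_zero_dvd 30 (k6 c4 c6 Δ) huR' hvR'
  have hRD : R ∣ g - 1 := hom_sub_zero_dvd 12 (kD c4 c6 Δ) huR' hvR'
  -- the invariants of the new model are `(w ^ 20 c₄, w ^ 30 c₆)` modulo `R`
  have hw4 : ∀ (n : ℕ), R ∣ 4 ^ n * w ^ n - 1 := fun n => by
    have := (show R ∣ 4 * w - 1 by rw [← huw]; exact huR').trans
      (sub_dvd_pow_sub_pow (4 * w) 1 n)
    rwa [one_pow, mul_pow] at this
  have hS4R : R ∣ S4 - w ^ 20 * c4 := by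
    obtain ⟨c, hc⟩ := hw4 20
    obtain ⟨d, hd⟩ := hR4
    rw [g4] at hd
    exact ⟨w ^ 20 * d - S4 * c, by linear_combination (w ^ 20 : ℤ) * hd - S4 * hc⟩
  have hS6R : R ∣ S6 - w ^ 30 * c6 := by
    obtain ⟨c, hc⟩ := hw4 30
    obtain ⟨d, hd⟩ := hR6
    rw [g6] at hd
    exact ⟨w ^ 30 * d - S6 * c, by linear_combination (w ^ 30 : ℤ) * hd - S6 * hc⟩
  -- the model
  obtain ⟨W'', e4'', e6''⟩ : ∃ W' : WeierstrassCurve ℤ, W'.c₄ = S4 ∧ W'.c₆ = S6 :=
    exists_model_of_invariants W (w ^ 10) hS4o hS6m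
      (by rw [hdisc']; exact Dvd.intro (27 * Δ * SD ^ 5) (by ring))
      (by rw [← pow_mul, ← hc4def]; exact (Dvd.intro (R₀ : ℤ) (by rw [hR])).trans hS4R)
      (by rw [← pow_mul, ← hc6def]; exact (Dvd.intro (R₀ : ℤ) (by rw [hR])).trans hS6R)
  have eΔ : W''.Δ = Δ * SD ^ 5 := by
    have := W''.c_relation
    rw [e4'', e6'', hdisc'] at this
    linarith
  -- two
  obtain ⟨m, hm⟩ : (4 : ℤ) ∣ SD := by
    have := dvd_add ((show (4 : ℤ) ∣ 32 by norm_num).trans (hx₀ w v hwx hv32))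
      (Dvd.intro (5 * Δ) (by ring) : (4 : ℤ) ∣ 20 * Δ)
    rwa [sub_add_cancel] at this
  have hm8 : (8 : ℤ) ∣ m - 5 * Δ := by
    obtain ⟨c, hc⟩ := hx₀ w v hwx hv32
    exact ⟨c, by rw [← hSD, hm] at hc; linarith⟩
  have hr8 : Δ * m ^ 5 % 8 = 5 := by
    have e1 : (m : ZMod 8) = 5 * (Δ : ZMod 8) := by
      rw [← sub_eq_zero]
      exact_mod_cast (ZMod.intCast_zmod_eq_zero_iff_dvd _ 8).2 hm8
    have : ((Δ * m ^ 5 : ℤ) : ZMod 8) = ((5 : ℤ) : ZMod 8) := by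
      push_cast
      rw [e1]
      have hd : ∀ d : ZMod 8, d * d = 1 → d * (5 * d) ^ 5 = 5 := by decide +kernel
      apply hd
      obtain ⟨c, hc⟩ : ∃ c, Δ = 2 * c + 1 := ⟨Δ / 2, by omega⟩
      rw [hc]; push_cast
      generalize (c : ZMod 8) = y
      revert y
      decide
    have := (ZMod.intCast_eq_intCast_iff' _ _ 8).1 this
    simpa using this
  have hneg : W''.Δ < 0 := by
    rw [eΔ]
    have h1 : Δ * SD < 0 := by
      rw [gD] at hΔg
      by_contra hc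
      push Not at hc
      have h3 : (0 : ℤ) ≤ 4 ^ 12 * (Δ * SD) := mul_nonneg (by norm_num) hc
      linarith
    have hSD0 : SD ≠ 0 := fun h0 => by rw [h0, mul_zero] at h1; exact lt_irrefl _ h1
    rw [show Δ * SD ^ 5 = Δ * SD * (SD ^ 2) ^ 2 by ring]
    exact mul_neg_of_neg_of_pos h1 (by positivity)
  have hgood : ∀ q : ℕ, q.Prime → (q : ℤ) ∣ Δ * Nb * L → q = 2 ∨ (q : ℤ) ∣ R := by
    intro q hq hd
    refine or_iff_not_imp_left.2 fun h2' => ?_
    have := hR₀d q hq h2' (Int.natCast_dvd.1 hd)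
    exact (Int.natCast_dvd_natCast.2 this).trans (Dvd.intro_left 81 (by rw [hR]))
  have hirr : ∀ x : ℚ, x ^ 3 + (-27 * (W''.c₄ : ℚ)) * x + (-54 * (W''.c₆ : ℚ)) ≠ 0 := by
    intro x hx0
    have hint : _root_.IsIntegral ℤ x := by
      refine ⟨Polynomial.X ^ 3 + (Polynomial.C (-27 * W''.c₄) * Polynomial.X
        + Polynomial.C (-54 * W''.c₆)), Polynomial.monic_X_pow_add ?_, ?_⟩
      · calc _ ≤ ((1 : ℕ) : WithBot ℕ) := by compute_degree!
          _ < _ := by norm_num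
      · rw [← Polynomial.aeval_def]
        simp only [map_add, map_mul, map_pow, Polynomial.aeval_X, eq_intCast, map_neg, map_ofNat,
          map_intCast]
        linear_combination hx0
    obtain ⟨z₀, hz₀⟩ := IsIntegrallyClosed.isIntegral_iff.1 hint
    apply hroot (4 ^ 10 * z₀)
    rw [← eG4, ← eG6, g4, g6, ← e4'', ← e6'']
    rw [algebraMap_int_eq, eq_intCast] at hz₀
    push_cast
    rw [hz₀]
    linear_combination ((4 : ℚ) ^ 30) * hx0
  refine ⟨W'', ?_, hneg, ⟨5, Δ * m ^ 5, by norm_num, ?_, hr8⟩, hirr, ?_⟩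
  · -- semistability
    intro q hq hqΔ hqc
    rw [eΔ] at hqΔ
    rw [e4''] at hqc
    have hqp : Prime (q : ℤ) := Nat.prime_iff_prime_int.1 hq
    have hqG : (q : ℤ) ∣ G4 := g4 ▸ hqc.mul_left _
    rcases eq_or_ne q 2 with rfl | hq2
    · exact hS4o (by simpa using hqc)
    by_cases hqR : (q : ℤ) ∣ R
    · have hqg : ¬(q : ℤ) ∣ SD := fun hd => hqp.not_dvd_one (by
        have := dvd_sub (gD ▸ hd.mul_left (4 ^ 12)) (hqR.trans hRD)
        rwa [sub_sub_cancel] at this)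
      refine hW q hq ((hqp.dvd_or_dvd hqΔ).resolve_right fun h => hqg (hqp.dvd_of_dvd_pow h)) ?_
      have := dvd_sub hqG (hqR.trans hR4)
      simpa using this
    · have hbad : ∀ z : ℤ, (q : ℤ) ∣ z → z ∣ Δ * Nb * L → False := fun z h1 h3 =>
        hqR ((hgood q hq (h1.trans h3)).resolve_left hq2)
      have hqS : (q : ℤ) ∣ SD := hqp.dvd_of_dvd_pow
        ((hqp.dvd_or_dvd hqΔ).resolve_left fun h => hbad _ h (Dvd.intro (Nb * L) (by ring)))
      have hqD : (q : ℤ) ∣ g := gD ▸ hqS.mul_left _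
      by_cases hqu : (q : ℤ) ∣ u
      · by_cases hqv : (q : ℤ) ∣ v
        · have hqδ : (q : ℤ) ∣ δ' := by
            have e : δ' = (τ.den : ℤ) * v - τ.num * u := by rw [hδdef, hu, hv, hP, hQ]; ring
            rw [e]; exact dvd_sub (hqv.mul_left _) (hqu.mul_left _)
          obtain ⟨hu', hv'⟩ := hdivΛ q (hqδ.trans (((dvd_abs δ' δ').2 dvd_rfl).trans
            (Dvd.intro_left (128 * |R|) (by rw [hΛ]))))
          have h2' : (q : ℤ) ∣ v1 := by
            have := dvd_sub hqv hv'; rwa [sub_sub_cancel] at this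
          exact hqR (hqp.dvd_of_dvd_pow h2')
        · exact hbad L (hL _ (hom_top_dvd hqp hqu hqv (hG4 ▸ hqG))
            (hom_top_dvd hqp hqu hqv (hg ▸ hqD))) (dvd_mul_left _ _)
      · have := Fact.mk hq
        have hu' : (u : ZMod q) ≠ 0 := fun h => hqu ((ZMod.intCast_zmod_eq_zero_iff_dvd _ _).1 h)
        have z4 := eval_mod (P := Z4 c4 c6 Δ) (natDegree_ofCoeffs 20 _) hu' (hG4 ▸ hqG)
        have zD := eval_mod (P := ZD c4 c6 Δ) (natDegree_ofCoeffs 12 _) hu' (hg ▸ hqD)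
        have := congrArg
          (fun r => (Polynomial.map (Int.castRingHom (ZMod q)) r).eval ((v : ZMod q) / u)) hbezZ
        simp only [Polynomial.map_add, Polynomial.map_mul, Polynomial.map_C, eval_add, eval_mul,
          eval_C, z4, zD, mul_zero, add_zero] at this
        exact hbad Nb ((ZMod.intCast_zmod_eq_zero_iff_dvd _ _).1 (by simpa using this.symm))
          (Dvd.intro (Δ * L) (by ring))
  · rw [eΔ, hm]; ring
  · have hu4 : (u : ℚ) ≠ 0 := by exact_mod_cast hu0'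
    obtain ⟨e, he⟩ := exists_equivariant_iso (W.map (Int.castRingHom ℚ))
      (W''.map (Int.castRingHom ℚ)) (by simp [← hΔdef, hΔ]) (by simp [hneg.ne])
      ((v : ℚ) / u) ((2 : ℚ) ^ 10 / (u : ℚ) ^ 5)
      (div_ne_zero (by norm_num) (pow_ne_zero 5 hu4))
      (by
        rw [show (W.map (Int.castRingHom ℚ)).c₄ = (c4 : ℚ) by simp [hc4def],
          show (W.map (Int.castRingHom ℚ)).c₆ = (c6 : ℚ) by simp [hc6def],
          WeierstrassCurve.map_c₄, eq_intCast, e4'']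
        have := eG4
        rw [g4] at this
        push_cast at this
        field_simp
        linear_combination this)
      (by
        rw [show (W.map (Int.castRingHom ℚ)).c₄ = (c4 : ℚ) by simp [hc4def],
          show (W.map (Int.castRingHom ℚ)).c₆ = (c6 : ℚ) by simp [hc6def],
          WeierstrassCurve.map_c₆, eq_intCast, e6'']
        have := eG6
        rw [g6] at this
        push_cast at this
        field_simp
        linear_combination this)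
    exact fun ℓ hℓ h5 hg hg' => five_dvd_apOfModel_sub _ _ e he hℓ h5 hg hg'

end Fermat.Agent.Row42.SwitchFive
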