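import Fermat.Agent.Row42.Goals
import Fermat.Agent.Row42.SwitchFive.Switch

/-!
# The switch on five-torsion, as used for residual modularity at three
-/

set_option autoImplicit false

namespace Fermat.Agent.Row42

/-- **The switch on five-torsion from good reduction at `2` with `a₂ = ± 2`.** -/
theorem switchFive : SwitchFive := fun W hΔ hW h2 ha => by
  obtain ⟨W', hss, hneg, hdisc, hcub, hcongr⟩ := SwitchFive.exists_switch_five W hΔ hW h2 ha
  exact ⟨W', ⟨hss, hneg, hdisc, hcub⟩, hcongr⟩

end Fermat.Agent.Row42
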