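import Fermat.Agent.ThreeFive.Explicit
import Mathlib.Tactic.IntervalCases

/-!
# The pencil forms of a curve with good supersingular reduction at two

For `c₄ = 16 h`, `c₆ = 8 t` the `i`-th coefficient is divisible by `4 ^ i`: these are the
quotients.
-/

set_option autoImplicit false

namespace Fermat.Agent.Row42.SwitchFive

open Fermat.Agent.ThreeFive

variable {R : Type*} [CommRing R]

/-- `k4 (16 h) (8 t) E i / 4 ^ i`. -/
def s4 (h t E : R) : ℕ → R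
  | 0 => 16 * h
  | 1 => -40 * t
  | 2 => 3040 * h ^ 2
  | 3 => -2280 * h * t
  | 4 => 77520 * h ^ 3 - 38475 * E
  | 5 => -31008 * h ^ 2 * t
  | 6 => 620160 * h ^ 4 + 430920 * h * E
  | 7 => -155040 * h ^ 3 * t - 153900 * t * E
  | 8 => 2015520 * h ^ 5 - 7602660 * h ^ 2 * E
  | 9 => -335920 * h ^ 4 * t + 6669000 * h * t * E
  | 10 => 2956096 * h ^ 6 - 175474728 * h ^ 3 * E + 45015750 * E ^ 2
  | 11 => -335920 * h ^ 5 * t + 46282860 * h ^ 2 * t * E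
  | 12 => 2015520 * h ^ 7 - 560796210 * h ^ 4 * E + 108037800 * h * E ^ 2
  | 13 => -155040 * h ^ 6 * t + 78919920 * h ^ 3 * t * E - 20776500 * t * E ^ 2
  | 14 => 620160 * h ^ 8 - 538219080 * h ^ 5 * E + 818594100 * h ^ 2 * E ^ 2
  | 15 => -31008 * h ^ 7 * t + 43393644 * h ^ 4 * t * E - 166212000 * h * t * E ^ 2
  | 16 => 77520 * h ^ 9 - 167412420 * h ^ 6 * E + 1510867080 * h ^ 3 * E ^ 2 - 701206875 * E ^ 3
  | 17 => -2280 * h ^ 8 * t + 7325640 * h ^ 5 * t * E - 128814300 * h ^ 2 * t * E ^ 2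
  | 18 => 3040 * h ^ 10 - 14097240 * h ^ 7 * E + 451681110 * h ^ 4 * E ^ 2 + 747954000 * h * E ^ 3
  | 19 => -40 * h ^ 9 * t + 260820 * h ^ 6 * t * E - 13996800 * h ^ 3 * t * E ^ 2
      - 98415000 * t * E ^ 3
  | 20 => 16 * h ^ 11 - 143451 * h ^ 8 * E + 12317184 * h ^ 5 * E ^ 2 + 216513000 * h ^ 2 * E ^ 3
  | _ => 0

lemma k4_scaled (h t E : R) {i : ℕ} (hi : i ≤ 20) :
    k4 (16 * h) (8 * t) E i = 4 ^ i * s4 h t E i := by
  interval_cases i <;> simp only [k4, s4] <;> ring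

/-- `k6 (16 h) (8 t) E i / 4 ^ i`. -/
def s6 (h t E : R) : ℕ → R
  | 0 => 8 * t
  | 1 => -1920 * h ^ 2
  | 2 => 3480 * h * t
  | 3 => -259840 * h ^ 3 + 78300 * E
  | 4 => 219240 * h ^ 2 * t
  | 5 => -9120384 * h ^ 4 + 1268460 * h * E
  | 6 => 4750200 * h ^ 3 * t - 528525 * t * E
  | 7 => -130291200 * h ^ 5 + 105705000 * h ^ 2 * E
  | 8 => 46823400 * h ^ 4 * t - 48624300 * h * t * E
  | 9 => -915657600 * h ^ 6 + 594297000 * h ^ 3 * E - 364682250 * E ^ 2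
  | 10 => 240360120 * h ^ 5 * t + 730985310 * h ^ 2 * t * E
  | 11 => -3496147200 * h ^ 7 - 42319349100 * h ^ 4 * E + 16629510600 * h * E ^ 2
  | 12 => 691945800 * h ^ 6 * t + 21864726900 * h ^ 3 * t * E - 3464481375 * t * E ^ 2
  | 13 => -7664630400 * h ^ 8 - 509047796700 * h ^ 5 * E + 137193462450 * h ^ 2 * E ^ 2
  | 14 => 1163381400 * h ^ 7 * t + 145277252325 * h ^ 4 * t * E
  | 15 => -9927521280 * h ^ 9 - 2140156423440 * h ^ 6 * E + 904645376640 * h ^ 3 * E ^ 2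
  | 16 => 1163381400 * h ^ 8 * t + 408346871400 * h ^ 5 * t * E - 424052520300 * h ^ 2 * t * E ^ 2
  | 17 => -7664630400 * h ^ 10 - 4172159437200 * h ^ 7 * E + 13295293724700 * h ^ 4 * E ^ 2
      - 3367475896500 * h * E ^ 3
  | 18 => 691945800 * h ^ 9 * t + 562631775300 * h ^ 6 * t * E
      - 3758269395600 * h ^ 3 * t * E ^ 2 + 467704985625 * t * E ^ 3
  | 19 => -3496147200 * h ^ 11 - 4111524935100 * h ^ 8 * E + 54346991115600 * h ^ 5 * E ^ 2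
      - 20618405050500 * h ^ 2 * E ^ 3
  | 20 => 240360120 * h ^ 10 * t + 398155218120 * h ^ 7 * t * E
      - 9162291436290 * h ^ 4 * t * E ^ 2 + 2067748357500 * h * t * E ^ 3
  | 21 => -915657600 * h ^ 12 - 2087349353100 * h ^ 9 * E + 79759946643300 * h ^ 6 * E ^ 2
      - 38385286651800 * h ^ 3 * E ^ 3 + 6646334006250 * E ^ 4
  | 22 => 46823400 * h ^ 11 * t + 144013020525 * h ^ 8 * t * E
      - 8570324620800 * h ^ 5 * t * E ^ 2 + 2747151389250 * h ^ 2 * t * E ^ 3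
  | 23 => -130291200 * h ^ 13 - 531192994200 * h ^ 10 * E + 47594344305600 * h ^ 7 * E ^ 2
      - 27423737346600 * h ^ 4 * E ^ 3 - 12483549090000 * h * E ^ 4
  | 24 => 4750200 * h ^ 12 * t + 25278293700 * h ^ 9 * t * E - 3279685779900 * h ^ 6 * t * E ^ 2
      + 1353668800500 * h ^ 3 * t * E ^ 3 + 1300369696875 * t * E ^ 4
  | 25 => -9120384 * h ^ 14 - 62473008024 * h ^ 11 * E + 11448599510862 * h ^ 8 * E ^ 2
      - 7651460061252 * h ^ 5 * E ^ 3 + 36930499391250 * h ^ 2 * E ^ 4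
  | 26 => 219240 * h ^ 13 * t + 1909243710 * h ^ 10 * t * E - 481258797840 * h ^ 7 * t * E ^ 2
      + 242350382025 * h ^ 4 * t * E ^ 3 - 10402957575000 * h * t * E ^ 4
  | 27 => -259840 * h ^ 15 - 2844466740 * h ^ 12 * E + 967693758120 * h ^ 9 * E ^ 2
      - 734548696020 * h ^ 6 * E ^ 3 + 81312598764000 * h ^ 3 * E ^ 4 - 26007393937500 * E ^ 5
  | 28 => 3480 * h ^ 14 * t + 47402820 * h ^ 11 * t * E - 21347230455 * h ^ 8 * t * E ^ 2
      + 12671915400 * h ^ 5 * t * E ^ 3 - 5432655622500 * h ^ 2 * t * E ^ 4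
  | 29 => -1920 * h ^ 16 - 32239620 * h ^ 13 * E + 18934236810 * h ^ 10 * E ^ 2
      - 16075499760 * h ^ 7 * E ^ 3 + 12525798649500 * h ^ 4 * E ^ 4 + 4304672100000 * h * E ^ 5
  | 30 => 8 * h ^ 15 * t + 164187 * h ^ 12 * t * E - 123895008 * h ^ 9 * t * E ^ 2
      + 84636900 * h ^ 6 * t * E ^ 3 - 191318760000 * h ^ 3 * t * E ^ 4 - 358722675000 * t * E ^ 5
  | _ => 0

lemma k6_scaled (h t E : R) {i : ℕ} (hi : i ≤ 30) :
    k6 (16 * h) (8 * t) E i = 4 ^ i * s6 h t E i := by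
  interval_cases i <;> simp only [k6, s6] <;> ring

/-- `kD (16 h) (8 t) E i / 4 ^ i`. -/
def sD (h t E : R) : ℕ → R
  | 0 => 1
  | 1 => 0
  | 2 => -66 * h
  | 3 => 55 * t
  | 4 => -1485 * h ^ 2
  | 5 => 396 * h * t
  | 6 => -4620 * h ^ 3 + 4455 * E
  | 7 => 594 * h ^ 2 * t
  | 8 => -3465 * h ^ 4 - 26730 * h * E
  | 9 => 220 * h ^ 3 * t + 7425 * t * E
  | 10 => -594 * h ^ 5 - 56133 * h ^ 2 * E
  | 11 => 15 * h ^ 4 * t + 3240 * h * t * E
  | 12 => -11 * h ^ 6 - 4752 * h ^ 3 * E + 18225 * E ^ 2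
  | _ => 0

lemma kD_scaled (h t E : R) {i : ℕ} (hi : i ≤ 12) :
    kD (16 * h) (8 * t) E i = 4 ^ i * sD h t E i := by
  interval_cases i <;> simp only [kD, sD] <;> ring

end Fermat.Agent.Row42.SwitchFive
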