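import Fermat.Agent.Row42.SwitchFive.Coeffs
import Fermat.Agent.ThreeFive.SwitchTwo

/-!
# Residues of the scaled forms at a cusp rational over `ℚ₂`

At `(u, v) = (4 w, 1)`, `w` even, the scaled `c₄` is odd, the scaled `c₆` is `3 (mod 4)` and the
scaled cuspidal form takes every even value modulo `32`.
-/

set_option autoImplicit false

namespace Fermat.Agent.Row42.SwitchFive

open Fermat.Agent.ThreeFive

/-- The value of a scaled form. -/
def scaled {R : Type*} [CommRing R] (σ : ℕ → R) (N : ℕ) (w v : R) : R :=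
  ∑ i ∈ Finset.range (N + 1), σ i * v ^ i * w ^ (N - i)

lemma hom_eq_scaled {N : ℕ} {k σ : ℕ → ℤ} (h : ∀ i ≤ N, k i = 4 ^ i * σ i) (w v : ℤ) :
    hom (ofCoeffs N k) N (4 * w) v = 4 ^ N * scaled σ N w v := by
  rw [hom, scaled, Finset.mul_sum]
  refine Finset.sum_congr rfl fun i hi => ?_
  have hi' : i ≤ N := Nat.lt_succ_iff.1 (Finset.mem_range.1 hi)
  rw [coeff_ofCoeffs N k hi', h i hi', mul_pow,
    show (4 : ℤ) ^ N = 4 ^ i * 4 ^ (N - i) by rw [← pow_add, Nat.add_sub_cancel' hi']]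
  ring

/-- Only the top `j` terms survive when `w ^ j = 0`. -/
lemma scaled_eq_top {R : Type*} [CommRing R] (σ : ℕ → R) {N j : ℕ} (hj : j ≤ N + 1) {w : R}
    (hw : w ^ j = 0) : scaled σ N w 1 = ∑ i ∈ Finset.range j, σ (N - i) * w ^ i := by
  have h1 : scaled σ N w 1 = ∑ i ∈ Finset.range (N + 1), σ (N - i) * w ^ i := by
    rw [scaled, ← Finset.sum_range_reflect]
    refine Finset.sum_congr rfl fun i hi => ?_
    have : i ≤ N := Nat.lt_succ_iff.1 (Finset.mem_range.1 hi)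
    rw [show N + 1 - 1 - i = N - i by omega, one_pow, mul_one, show N - (N - i) = i by omega]
  rw [h1]
  refine (Finset.sum_subset (Finset.range_subset_range.2 hj) fun i _ hi => ?_).symm
  obtain ⟨d, rfl⟩ := Nat.exists_eq_add_of_le (not_lt.1 fun h => hi (Finset.mem_range.2 h))
  rw [pow_add, hw, zero_mul, mul_zero]

lemma cast_scaled {m : ℕ} (σ : ℕ → ℤ) (N : ℕ) (w v : ℤ) :
    ((scaled σ N w v : ℤ) : ZMod m) = scaled (fun i => (σ i : ZMod m)) N w v := by
  simp [scaled]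

variable {h t E w v : ℤ}

/-- The scaled `c₄` is odd. -/
lemma s4_mod_two (hh : h % 2 = 1) (hE : E % 4 = 1) (hw : (2 : ℤ) ∣ w) (hv : (32 : ℤ) ∣ v - 1) :
    ¬(2 : ℤ) ∣ scaled (s4 h t E) 20 w v := by
  have ev : (v : ZMod 2) = 1 := by
    rw [show (1 : ZMod 2) = ((1 : ℤ) : ZMod 2) by simp, ZMod.intCast_eq_intCast_iff']
    omega
  have ew : (w : ZMod 2) = 0 := (ZMod.intCast_zmod_eq_zero_iff_dvd _ 2).2 hw
  have eh : (h : ZMod 2) = 1 := by
    rw [show (1 : ZMod 2) = ((1 : ℤ) : ZMod 2) by simp, ZMod.intCast_eq_intCast_iff']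
    omega
  have eE : (E : ZMod 2) = 1 := by
    rw [show (1 : ZMod 2) = ((1 : ℤ) : ZMod 2) by simp, ZMod.intCast_eq_intCast_iff']
    omega
  intro hd
  have h0 := (ZMod.intCast_zmod_eq_zero_iff_dvd _ 2).2 hd
  rw [cast_scaled, ev, ew, scaled_eq_top _ (j := 1) (by norm_num) (by rw [pow_one])] at h0
  simp only [Finset.sum_range_one, pow_zero, mul_one, Nat.sub_zero, s4] at h0
  push_cast at h0
  rw [eh, eE] at h0
  exact absurd h0 (by decide)

/-- The scaled `c₆` is `3` modulo `4`. -/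
lemma s6_mod_four (hh : h % 2 = 1) (ht : t % 4 = 1) (hE : E % 4 = 1) (hw : (2 : ℤ) ∣ w)
    (hv : (32 : ℤ) ∣ v - 1) : scaled (s6 h t E) 30 w v % 4 = 3 := by
  obtain ⟨x, rfl⟩ := hw
  have ev : (v : ZMod 4) = 1 := by
    rw [show (1 : ZMod 4) = ((1 : ℤ) : ZMod 4) by simp, ZMod.intCast_eq_intCast_iff']
    omega
  have et : (t : ZMod 4) = 1 := by
    rw [show (1 : ZMod 4) = ((1 : ℤ) : ZMod 4) by simp, ZMod.intCast_eq_intCast_iff']
    omega
  have eE : (E : ZMod 4) = 1 := by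
    rw [show (1 : ZMod 4) = ((1 : ℤ) : ZMod 4) by simp, ZMod.intCast_eq_intCast_iff']
    omega
  have eh : (h : ZMod 4) * h = 1 := by
    obtain ⟨k, rfl⟩ : ∃ k, h = 2 * k + 1 := ⟨h / 2, by omega⟩
    push_cast
    revert k
    intro k _
    generalize (k : ZMod 4) = y
    revert y
    decide
  have key : ((scaled (s6 h t E) 30 (2 * x) v : ℤ) : ZMod 4) = 3 := by
    rw [cast_scaled, ev, scaled_eq_top _ (j := 2) (by norm_num) (by
      push_cast
      rw [mul_pow, show (2 : ZMod 4) ^ 2 = 0 from rfl, zero_mul])]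
    simp only [Finset.sum_range_succ, Finset.sum_range_zero, Nat.reduceSub, s6]
    push_cast
    rw [et, eE]
    revert eh
    generalize (h : ZMod 4) = a
    generalize (x : ZMod 4) = y
    revert a y
    decide +kernel
  rw [show (3 : ZMod 4) = ((3 : ℤ) : ZMod 4) by simp, ZMod.intCast_eq_intCast_iff'] at key
  simpa using key

lemma isUnit_two_mul_add_one : ∀ m : ZMod 16, IsUnit (2 * m + 1) := by
  have h : ∀ m : ZMod 16, (2 * m + 1) * (2 * m + 1) ^ 3 = 1 := by decide +kernel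
  exact fun m => IsUnit.of_mul_eq_one _ (h m)

/-- A quartic with unit linear term and small higher terms takes every even value. -/
lemma exists_even_value (a c₁ c₂ c₃ c₄ b : ℤ) (hc : c₁ % 2 = 1) :
    ∃ x : ℤ, (16 : ℤ) ∣ a + c₁ * x + 2 * c₂ * x ^ 2 + 4 * c₃ * x ^ 3 + 8 * c₄ * x ^ 4 - b := by
  let f : ZMod 16 → ZMod 16 := fun x =>
    a + c₁ * x + 2 * c₂ * x ^ 2 + 4 * c₃ * x ^ 3 + 8 * c₄ * x ^ 4
  obtain ⟨d, rfl⟩ : ∃ d, c₁ = 2 * d + 1 := ⟨c₁ / 2, by omega⟩
  have hinj : Function.Injective f := fun x y hxy => by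
    have hu := isUnit_two_mul_add_one ((d : ZMod 16) + c₂ * (x + y) +
      2 * c₃ * (x ^ 2 + x * y + y ^ 2) + 4 * c₄ * (x + y) * (x ^ 2 + y ^ 2))
    rw [← sub_eq_zero, ← hu.mul_left_eq_zero]
    simp only [f] at hxy
    push_cast at hxy
    linear_combination hxy
  obtain ⟨x, hx⟩ := Finite.injective_iff_surjective.1 hinj (b : ZMod 16)
  obtain ⟨z, rfl⟩ := ZMod.intCast_surjective x
  refine ⟨z, (ZMod.intCast_zmod_eq_zero_iff_dvd _ 16).1 ?_⟩
  simp only [f] at hx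
  push_cast at hx ⊢
  linear_combination hx

/-- The even `w` with scaled cuspidal form `4 · 5 E (mod 32)`. -/
lemma exists_sD_value (hh : h % 2 = 1) (ht : t % 4 = 1) (hE : E % 4 = 1) :
    ∃ x : ℤ, ∀ w v : ℤ, (32 : ℤ) ∣ w - 2 * x → (32 : ℤ) ∣ v - 1 →
      (32 : ℤ) ∣ scaled (sD h t E) 12 w v - 20 * E := by
  obtain ⟨a, ha⟩ : (2 : ℤ) ∣ sD h t E 12 := by
    refine (ZMod.intCast_zmod_eq_zero_iff_dvd _ 2).1 ?_
    simp only [sD]
    push_cast
    rw [show (h : ZMod 2) = ((1 : ℤ) : ZMod 2) from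
        (ZMod.intCast_eq_intCast_iff' _ _ 2).2 (by simpa using hh),
      show (E : ZMod 2) = ((1 : ℤ) : ZMod 2) from
        (ZMod.intCast_eq_intCast_iff' _ _ 2).2 (by simp; omega)]
    decide
  have h11 : sD h t E 11 % 2 = 1 := by
    have : ((sD h t E 11 : ℤ) : ZMod 2) = ((1 : ℤ) : ZMod 2) := by
      simp only [sD]
      push_cast
      rw [show (h : ZMod 2) = ((1 : ℤ) : ZMod 2) from
          (ZMod.intCast_eq_intCast_iff' _ _ 2).2 (by simpa using hh),
        show (t : ZMod 2) = ((1 : ℤ) : ZMod 2) from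
          (ZMod.intCast_eq_intCast_iff' _ _ 2).2 (by simp; omega),
        show (E : ZMod 2) = ((1 : ℤ) : ZMod 2) from
          (ZMod.intCast_eq_intCast_iff' _ _ 2).2 (by simp; omega)]
      decide
    simpa using (ZMod.intCast_eq_intCast_iff' _ _ 2).1 this
  obtain ⟨x, hx⟩ := exists_even_value a (sD h t E 11) (sD h t E 10) (sD h t E 9) (sD h t E 8)
    (10 * E) h11
  refine ⟨x, fun w v hw hv => ?_⟩
  have hx' := mul_dvd_mul_left (2 : ℤ) hx
  rw [show (2 : ℤ) * 16 = ((32 : ℕ) : ℤ) by norm_num, ← ZMod.intCast_zmod_eq_zero_iff_dvd] at hx'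
  rw [show (32 : ℤ) = ((32 : ℕ) : ℤ) from rfl, ← ZMod.intCast_zmod_eq_zero_iff_dvd, Int.cast_sub,
    cast_scaled]
  have ev : (v : ZMod 32) = 1 := by
    rw [show (1 : ZMod 32) = ((1 : ℤ) : ZMod 32) by simp]
    exact ((ZMod.intCast_eq_intCast_iff_dvd_sub 1 v 32).2 hv).symm
  have ew : (w : ZMod 32) = 2 * (x : ZMod 32) := by
    rw [show 2 * (x : ZMod 32) = ((2 * x : ℤ) : ZMod 32) by push_cast; rfl]
    exact ((ZMod.intCast_eq_intCast_iff_dvd_sub (2 * x) w 32).2 hw).symm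
  rw [ev, ew, scaled_eq_top _ (j := 5) (by norm_num) (by
    rw [mul_pow, show (2 : ZMod 32) ^ 5 = 0 from rfl, zero_mul])]
  simp only [Finset.sum_range_succ, Finset.sum_range_zero, Nat.reduceSub]
  generalize sD h t E 11 = c1 at hx'
  generalize sD h t E 10 = c2 at hx'
  generalize sD h t E 9 = c3 at hx'
  generalize sD h t E 8 = c4' at hx'
  rw [ha]
  push_cast at hx' ⊢
  linear_combination hx'

end Fermat.Agent.Row42.SwitchFive
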